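/-
S37 / wave 4 (helper64): package P-C, generic core — the VALUE of a norm at a prime.

Mathlib only.
* `norm_quotient_mk`  : for a local ring `R` and a finite free `R`-algebra `S`, the norm commutes
  with reduction modulo the maximal ideal.
* `det_eq_pow_of_isNilpotent_sub` : `det φ = a ^ dim` when `φ - a` is nilpotent.
-/
import Mathlib

set_option autoImplicit false

open IsLocalRing Module

namespace Fermat.Agent.S37.H64

section Quotient

variable {R S : Type*} [CommRing R] [CommRing S] [Algebra R S]
  [Module.Free R S] [Module.Finite R S]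

attribute [local instance] Ideal.Quotient.field

/-- The norm commutes with reduction modulo the maximal ideal of a local ring. -/
theorem norm_quotient_mk [IsLocalRing R] (x : S) :
    Algebra.norm (R ⧸ maximalIdeal R)
        (Ideal.Quotient.mk (Ideal.map (algebraMap R S) (maximalIdeal R)) x) =
      Ideal.Quotient.mk (maximalIdeal R) (Algebra.norm R x) := by
  classical
  let ι := Module.Free.ChooseBasisIndex R S
  let b : Module.Basis ι R S := Module.Free.chooseBasis R S
  rw [Algebra.norm_eq_matrix_det b, Algebra.norm_eq_matrix_det (basisQuotient b), RingHom.map_det]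
  congr 1
  ext i j
  simp only [Algebra.leftMulMatrix_apply, Algebra.coe_lmul_eq_mul, LinearMap.toMatrix_apply,
    basisQuotient_apply, LinearMap.mul_apply', RingHom.mapMatrix_apply, Matrix.map_apply,
    ← map_mul, basisQuotient_repr]

end Quotient

section Nilpotent

variable {κ V : Type*} [Field κ] [AddCommGroup V] [Module κ V] [FiniteDimensional κ V]

/-- If `φ - a` is nilpotent then `det φ = a ^ dim V`. -/
theorem det_eq_pow_of_isNilpotent_sub (φ : Module.End κ V) (a : κ)
    (h : IsNilpotent (φ - a • (1 : Module.End κ V))) : LinearMap.det φ = a ^ finrank κ V := by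
  have h1 := IsNilpotent.charpoly_eq_X_pow_finrank h
  rw [LinearMap.charpoly_sub_smul] at h1
  have h2 : φ.charpoly.coeff 0 = (-a) ^ finrank κ V := by
    have h3 := congrArg (Polynomial.eval (-a)) h1
    simpa [Polynomial.eval_comp, Polynomial.coeff_zero_eq_eval_zero] using h3
  rw [LinearMap.det_eq_sign_charpoly_coeff, h2, ← mul_pow]
  simp

end Nilpotent

section DetPi

/-- The determinant of a block diagonal matrix with blocks of varying sizes. -/
theorem det_blockDiagonal_dep {κ : Type*} [CommRing κ] {ι : Type*} [Fintype ι] [DecidableEq ι]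
    {m : ι → Type*} [∀ i, Fintype (m i)] [∀ i, DecidableEq (m i)]
    (d : ∀ i, Matrix (m i) (m i) κ) :
    (Matrix.blockDiagonal' d).det = ∏ i, (d i).det := by
  classical
  let _ : LinearOrder ι := LinearOrder.lift' (Fintype.equivFin ι) (Fintype.equivFin ι).injective
  rw [(Matrix.blockTriangular_blockDiagonal' d).det_fintype]
  refine Finset.prod_congr rfl fun k _ => ?_
  let e : m k ≃ { a : (i : ι) × m i // a.1 = k } :=
    { toFun := fun x => ⟨⟨k, x⟩, rfl⟩
      invFun := fun a => a.2 ▸ a.1.2
      left_inv := fun x => rfl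
      right_inv := by rintro ⟨⟨i, x⟩, rfl⟩; rfl }
  rw [← Matrix.det_submatrix_equiv_self e]
  congr 1
  ext x y
  simp only [Matrix.submatrix_apply, Matrix.toSquareBlock_def, Matrix.of_apply, e, Equiv.coe_fn_mk,
    Matrix.blockDiagonal'_apply_eq]

variable {κ : Type*} [CommRing κ] {ι : Type*} [Fintype ι] {M : ι → Type*}
  [∀ i, AddCommGroup (M i)] [∀ i, Module κ (M i)] [∀ i, Module.Free κ (M i)]
  [∀ i, Module.Finite κ (M i)]

/-- The determinant of a diagonal endomorphism of a (dependent) finite product. -/
theorem det_pi_dep (f : ∀ i, M i →ₗ[κ] M i) :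
    LinearMap.det (LinearMap.pi fun i => (f i).comp (LinearMap.proj i)) =
      ∏ i, LinearMap.det (f i) := by
  classical
  let b : ∀ i, Module.Basis (Module.Free.ChooseBasisIndex κ (M i)) κ (M i) :=
    fun i => Module.Free.chooseBasis κ (M i)
  let B := Pi.basis b
  rw [← LinearMap.det_toMatrix B]
  have hmat : LinearMap.toMatrix B B (LinearMap.pi fun i => (f i).comp (LinearMap.proj i)) =
      Matrix.blockDiagonal' fun i => LinearMap.toMatrix (b i) (b i) (f i) := by
    ext ⟨i₁, i₂⟩ ⟨j₁, j₂⟩
    rw [LinearMap.toMatrix_apply, Matrix.blockDiagonal'_apply]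
    simp only [B, Pi.basis_apply, Pi.basis_repr, LinearMap.pi_apply, LinearMap.coe_comp,
      Function.comp_apply, LinearMap.coe_proj, Function.eval]
    split_ifs with h
    · subst h
      simp [LinearMap.toMatrix_apply]
    · have : (Pi.single j₁ ((b j₁) j₂) : ∀ i, M i) i₁ = 0 := Pi.single_eq_of_ne h _
      rw [this, map_zero, map_zero]
      rfl
  rw [hmat, det_blockDiagonal_dep]
  exact Finset.prod_congr rfl fun i _ => LinearMap.det_toMatrix (b i) (f i)

end DetPi

section Main

set_option linter.deprecated false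

open Ideal UniqueFactorizationMonoid

variable {R S : Type*} [CommRing R] [IsLocalRing R] [CommRing S] [IsDedekindDomain S]
  [Algebra R S] [Module.Free R S] [Module.Finite R S]

attribute [local instance] Ideal.Quotient.field

/-- **Value of a norm at the closed point.**  `R` local with maximal ideal `p`, `S` a Dedekind
domain, finite free over `R`.  If `g ≡ a_P` modulo every prime `P` of `S` over `p`, then
`N(g) ≡ ∏_P a_P ^ (e_P f_P)` modulo `p`. -/
theorem norm_mk_eq_prod_factors (hp : map (algebraMap R S) (maximalIdeal R) ≠ ⊥) (g : S)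
    (a : Ideal S → R)
    (ha : ∀ P ∈ (factors (map (algebraMap R S) (maximalIdeal R))).toFinset,
      g - algebraMap R S (a P) ∈ P) :
    Ideal.Quotient.mk (maximalIdeal R) (Algebra.norm R g) =
      ∏ P ∈ (factors (map (algebraMap R S) (maximalIdeal R))).toFinset,
        Ideal.Quotient.mk (maximalIdeal R) (a P) ^
          (ramificationIdx' (maximalIdeal R) P * inertiaDeg' (maximalIdeal R) P) := by
  classical
  set p := maximalIdeal R with hpdef
  rw [← norm_quotient_mk, Algebra.norm_apply]
  let Φ := Factors.piQuotientLinearEquiv S p hp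
  -- multiplication by `g` on the factor `S / P ^ e`
  let f : ∀ P : (factors (map (algebraMap R S) p)).toFinset,
      (S ⧸ (P : Ideal S) ^ ramificationIdx' p P.1) →ₗ[R ⧸ p]
        (S ⧸ (P : Ideal S) ^ ramificationIdx' p P.1) :=
    fun P => Algebra.lmul (R ⧸ p) (S ⧸ (P : Ideal S) ^ ramificationIdx' p P.1)
      (Ideal.Quotient.mk _ g)
  have hconj : (Φ : _ →ₗ[R ⧸ p] _) ∘ₗ
      (Algebra.lmul (R ⧸ p) (S ⧸ map (algebraMap R S) p) (Ideal.Quotient.mk _ g)) ∘ₗ
        (Φ.symm : _ →ₗ[R ⧸ p] _) =
      LinearMap.pi fun P => (f P).comp (LinearMap.proj P) := by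
    apply LinearMap.ext
    intro x
    obtain ⟨y, rfl⟩ := Φ.surjective x
    funext P
    simp only [LinearMap.coe_comp, LinearEquiv.coe_coe, Function.comp_apply,
      LinearEquiv.symm_apply_apply, LinearMap.pi_apply, LinearMap.coe_proj, Function.eval, f]
    change (Factors.piQuotientEquiv p hp ((Ideal.Quotient.mk _ g) * y)) P =
      (Ideal.Quotient.mk _ g) * (Factors.piQuotientEquiv p hp y) P
    rw [map_mul, Pi.mul_apply, Factors.piQuotientEquiv_mk]
  rw [← LinearMap.det_conj _ Φ, hconj, det_pi_dep,
    ← Finset.prod_coe_sort (factors (map (algebraMap R S) p)).toFinset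
      (fun P => Ideal.Quotient.mk p (a P) ^ (ramificationIdx' p P * inertiaDeg' p P))]
  refine Finset.prod_congr rfl fun P _ => ?_
  have hnil : IsNilpotent (f P - (Ideal.Quotient.mk p (a P.1)) •
      (1 : Module.End (R ⧸ p) (S ⧸ (P : Ideal S) ^ ramificationIdx' p P.1))) := by
    refine ⟨ramificationIdx' p P.1, ?_⟩
    have h1 : f P - (Ideal.Quotient.mk p (a P.1)) •
        (1 : Module.End (R ⧸ p) (S ⧸ (P : Ideal S) ^ ramificationIdx' p P.1)) =
        Algebra.lmul (R ⧸ p) (S ⧸ (P : Ideal S) ^ ramificationIdx' p P.1)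
          (Ideal.Quotient.mk _ (g - algebraMap R S (a P.1))) := by
      apply LinearMap.ext
      intro x
      obtain ⟨x, rfl⟩ := Ideal.Quotient.mk_surjective x
      simp only [f, LinearMap.sub_apply, LinearMap.smul_apply, Module.End.one_apply,
        Algebra.coe_lmul_eq_mul, LinearMap.mul_apply']
      rw [Algebra.smul_def, Quotient.algebraMap_quotient_pow_ramificationIdx, ← map_mul, ← map_mul,
        ← map_sub, ← map_mul, sub_mul]
    rw [h1, ← map_pow, ← map_pow]
    have h2 : (Ideal.Quotient.mk ((P : Ideal S) ^ ramificationIdx' p P.1))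
        ((g - algebraMap R S (a P.1)) ^ ramificationIdx' p P.1) = 0 :=
      Ideal.Quotient.eq_zero_iff_mem.mpr (Ideal.pow_mem_pow (ha P.1 P.2) _)
    rw [h2, map_zero]
  rw [det_eq_pow_of_isNilpotent_sub (f P) _ hnil, Factors.finrank_pow_ramificationIdx]

end Main

end Fermat.Agent.S37.H64
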