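/-
S37, package P-C (helper64), part 2: the norm VALUE formula in the language of places.

For a finite separable extension `F'/F` of fields over `K`, a place `v` of `F` and `g : F'` which
has a value `c w : K` at every place `w` of `F'` above `v` (`g - c w ∈ m_w`), the norm of `g` has
the value `∏_{w | v} (c w) ^ e(w | v)` at `v`:

  `Algebra.norm F g - algebraMap K F (∏ w ∈ v.fiber F', c w ^ w.ramificationIndex F) ∈ m_v`

(`norm_sub_prod_mem_nonunits`), under the hypothesis `hval` that the residue fields of the places
above `v` are `K` (automatic for `K` algebraically closed: landed `S24.H94.exists_sub_mem_nonunits`).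
`normAlong_sub_prod_mem_nonunits` is the same statement in the `Along` vocabulary of the Prelude
(`fiberAlong`, `ramificationIndexAlong`), and `normAlong_sub_pullback_prod_mem_nonunits` writes the
product over the divisor `pullbackAlong φ hφ (single v 1)`.

The proof applies the generic core `norm_mk_eq_prod_factors` (NormValue.lean) to the integral
closure of the valuation ring `O_v` in `F'`, with the place/prime dictionary of `S18/H42/PlaceDict`.
-/
import Mathlib
import Fermat.Prelude.Def_AlgebraicCurve_Correspondence
import Fermat.Agent.S37.H64.NormValue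
import Fermat.Agent.S18.H42.PlaceDict

set_option autoImplicit false
set_option linter.deprecated false
set_option linter.unusedSectionVars false

open AlgebraicCurve IsDedekindDomain IsLocalRing

noncomputable section

namespace Fermat.Agent.S37.H64

open Fermat.Agent.S24.H52 Fermat.Agent.S18.H42

section Rel

variable {K F F' : Type*} [Field K] [Field F] [Field F'] [Algebra K F] [Algebra K F']
  [Algebra F F'] [IsScalarTower K F F']

/-- The valuation ring of a place of `F` acts on an extension field `F'`. -/
@[reducible] def algValF' (v : Place K F) : Algebra v.toValuationSubring F' :=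
  ((algebraMap F F').comp (algebraMap v.toValuationSubring F)).toAlgebra

attribute [local instance low] algValF'

theorem towerValF' (v : Place K F) : IsScalarTower v.toValuationSubring F F' :=
  IsScalarTower.of_algebraMap_eq fun _ => rfl

theorem towerKValF' (v : Place K F) : IsScalarTower K v.toValuationSubring F' :=
  IsScalarTower.of_algebraMap_eq fun a => by
    show algebraMap K F' a = algebraMap F F' (algebraMap K F a)
    exact IsScalarTower.algebraMap_apply K F F' a

attribute [local instance] towerValF' towerKValF'

/-- The integral closure in `F'` of the valuation ring of a place of `F`. -/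
abbrev SV (v : Place K F) : Subalgebra v.toValuationSubring F' :=
  integralClosure v.toValuationSubring F'

section Closure

variable (v : Place K F) [Module.Finite F F'] [Algebra.IsSeparable F F']

theorem faithfulSMul_VF' : FaithfulSMul v.toValuationSubring F' :=
  (faithfulSMul_iff_algebraMap_injective _ _).mpr
    ((algebraMap F F').injective.comp Subtype.val_injective)

theorem isTorsionFree_VF' : Module.IsTorsionFree v.toValuationSubring F' :=
  haveI := faithfulSMul_VF' (F' := F') v
  FaithfulSMul.to_isTorsionFree _ _

attribute [local instance] faithfulSMul_VF' isTorsionFree_VF'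

theorem isTorsionFree_SV : Module.IsTorsionFree v.toValuationSubring (SV (F' := F') v) :=
  Subalgebra.instIsTorsionFree (SV (F' := F') v)

theorem faithfulSMul_SV : FaithfulSMul v.toValuationSubring (SV (F' := F') v) :=
  (faithfulSMul_iff_algebraMap_injective _ _).mpr fun _ _ h =>
    FaithfulSMul.algebraMap_injective v.toValuationSubring F' (congrArg Subtype.val h)

theorem isDedekindDomain_SV : IsDedekindDomain (SV (F' := F') v) :=
  integralClosure.isDedekindDomain v.toValuationSubring F F'

theorem isFractionRing_SV : IsFractionRing (SV (F' := F') v) F' :=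
  integralClosure.isFractionRing_of_finite_extension F F'

theorem finite_SV : Module.Finite v.toValuationSubring (SV (F' := F') v) :=
  IsIntegralClosure.finite v.toValuationSubring F F' _

attribute [local instance] isDedekindDomain_SV isFractionRing_SV finite_SV
  isTorsionFree_SV faithfulSMul_SV

theorem free_SV : Module.Free v.toValuationSubring (SV (F' := F') v) :=
  Module.free_of_finite_type_torsion_free'

attribute [local instance] free_SV

/-- The norm over `O_v` of an element of the integral closure is the field norm. -/
theorem coe_norm_SV (s : SV (F' := F') v) :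
    ((Algebra.norm v.toValuationSubring s : v.toValuationSubring) : F) =
      Algebra.norm F (s : F') := by
  haveI : IsLocalization
      (Algebra.algebraMapSubmonoid (SV (F' := F') v) (nonZeroDivisors v.toValuationSubring)) F' :=
    IsIntegralClosure.isLocalization v.toValuationSubring F F' (SV (F' := F') v)
  exact (Algebra.norm_localization v.toValuationSubring
    (nonZeroDivisors v.toValuationSubring) (Rₘ := F) (Sₘ := F') s).symm

/-- The integral closure of `O_v` lies in the valuation ring of every place above `v`. -/
theorem SV_mem_of_restrict_eq {w : Place K F'} (hw : w.restrict F = v) (s : SV (F' := F') v) :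
    algebraMap (SV (F' := F') v) F' s ∈ w.toValuationSubring := by
  have hR : ∀ r : v.toValuationSubring,
      ((algebraMap F F').comp (algebraMap v.toValuationSubring F)) r ∈
        w.toValuationSubring.toSubring := by
    intro r
    have h : (r : F) ∈ (w.restrict F).toValuationSubring := by rw [hw]; exact r.2
    exact h
  obtain ⟨q, hq, hqs⟩ : IsIntegral v.toValuationSubring (s : F') := s.2
  let φ : v.toValuationSubring →+* w.toValuationSubring :=
    ((algebraMap F F').comp (algebraMap v.toValuationSubring F)).codRestrict
      w.toValuationSubring.toSubring hR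
  have hint' : IsIntegral w.toValuationSubring (s : F') := by
    refine ⟨q.map φ, hq.map φ, ?_⟩
    rw [Polynomial.eval₂_map]
    exact hqs
  obtain ⟨a, ha⟩ :=
    (IsIntegrallyClosed.isIntegral_iff (R := w.toValuationSubring) (K := F')).mp hint'
  show (s : F') ∈ w.toValuationSubring
  rw [← ha]
  exact a.2

/-- Every height one prime of the integral closure lies over the maximal ideal of `O_v`. -/
theorem comap_asIdeal_eq (P : HeightOneSpectrum (SV (F' := F') v)) :
    P.asIdeal.comap (algebraMap v.toValuationSubring (SV (F' := F') v)) =
      maximalIdeal v.toValuationSubring := by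
  haveI := P.isMaximal
  exact IsLocalRing.eq_maximalIdeal (Ideal.isMaximal_comap_of_isIntegral_of_isMaximal P.asIdeal)

/-- The place of a height one prime of the integral closure of `O_v` lies above `v`. -/
theorem restrict_placeOfPrime (P : HeightOneSpectrum (SV (F' := F') v)) :
    (placeOfPrime (K := K) (F := F') P).restrict F = v := by
  apply Place.ext
  rw [Place.restrict_toValuationSubring]
  ext f
  rw [ValuationSubring.mem_comap]
  constructor
  · intro hf
    by_contra hfv
    have hf0 : f ≠ 0 := fun h => hfv (h ▸ v.toValuationSubring.zero_mem)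
    have hf0' : algebraMap F F' f ≠ 0 := by simpa using hf0
    have hinv : f⁻¹ ∈ v.toValuationSubring :=
      (v.toValuationSubring.mem_or_inv_mem f).resolve_left hfv
    have hnu : (⟨f⁻¹, hinv⟩ : v.toValuationSubring) ∈ maximalIdeal v.toValuationSubring := by
      rw [IsLocalRing.mem_maximalIdeal, mem_nonunits_iff]
      intro hu
      obtain ⟨b, hb⟩ := isUnit_iff_exists_inv.mp hu
      have hb' : f⁻¹ * (b : F) = 1 := congrArg Subtype.val hb
      have hbf : (b : F) = f := by
        have := congrArg (fun z => f * z) hb'
        simpa [← mul_assoc, mul_inv_cancel₀ hf0] using this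
      exact hfv (hbf ▸ b.2)
    rw [← comap_asIdeal_eq v P, Ideal.mem_comap] at hnu
    have hlt : P.valuation F' (algebraMap (SV (F' := F') v) F'
        (algebraMap v.toValuationSubring (SV (F' := F') v) ⟨f⁻¹, hinv⟩)) < 1 :=
      (P.valuation_lt_one_iff_mem (K := F') _).mpr hnu
    have heq : algebraMap (SV (F' := F') v) F'
        (algebraMap v.toValuationSubring (SV (F' := F') v) ⟨f⁻¹, hinv⟩) =
        (algebraMap F F' f)⁻¹ := by
      rw [← map_inv₀]; rfl
    rw [heq, map_inv₀] at hlt
    have hle : P.valuation F' (algebraMap F F' f) ≤ 1 := (mem_placeOfPrime_iff P hf0').mp hf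
    have hpos : 0 < P.valuation F' (algebraMap F F' f) :=
      zero_lt_iff.mpr ((Valuation.ne_zero_iff _).mpr hf0')
    exact absurd ((inv_lt_one₀ hpos).mp hlt) (not_lt.mpr hle)
  · intro hf
    exact algebraMap_mem_placeOfPrime (K := K) P
      (algebraMap v.toValuationSubring (SV (F' := F') v) ⟨f, hf⟩)

/-- Membership in the centre of a place, in terms of the maximal ideal of the place. -/
theorem mem_centre_iff (w : Place K F')
    (hB : ∀ b : SV (F' := F') v, algebraMap (SV (F' := F') v) F' b ∈ w.toValuationSubring)
    (s : SV (F' := F') v) :
    s ∈ centre w hB ↔ algebraMap (SV (F' := F') v) F' s ∈ w.toValuationSubring.nonunits := by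
  rw [ValuationSubring.mem_nonunits_iff_exists_mem_maximalIdeal]
  constructor
  · intro h
    exact ⟨hB s, h⟩
  · rintro ⟨_, h⟩
    exact h

/-- A function regular at all places above `v` lies in the integral closure of `O_v`. -/
theorem mem_SV_of_forall_mem (g : F')
    (hg : ∀ w : Place K F', w.restrict F = v → g ∈ w.toValuationSubring) :
    g ∈ SV (F' := F') v := by
  have h := HeightOneSpectrum.mem_integers_of_valuation_le_one (R := SV (F' := F') v) F' g
    (fun P => by
      by_cases hg0 : g = 0
      · rw [hg0, map_zero]; exact zero_le_one
      · exact (mem_placeOfPrime_iff (K := K) P hg0).mp (hg _ (restrict_placeOfPrime v P)))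
  obtain ⟨s, rfl⟩ := h
  exact s.2

theorem maximalIdeal_ne_bot_V : maximalIdeal v.toValuationSubring ≠ ⊥ :=
  IsDiscreteValuationRing.not_a_field v.toValuationSubring

theorem map_maximalIdeal_ne_bot :
    Ideal.map (algebraMap v.toValuationSubring (SV (F' := F') v))
      (maximalIdeal v.toValuationSubring) ≠ ⊥ := by
  rw [Ne, Ideal.map_eq_bot_iff_of_injective
    (FaithfulSMul.algebraMap_injective v.toValuationSubring (SV (F' := F') v))]
  exact maximalIdeal_ne_bot_V v

/-- The centre of a place above `v` is one of the prime factors of `m_v`. -/
theorem centre_mem_primesOverFinset {w : Place K F'} (hw : w.restrict F = v) :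
    centre w (SV_mem_of_restrict_eq v hw) ∈
      IsDedekindDomain.primesOverFinset (maximalIdeal v.toValuationSubring) (SV (F' := F') v) := by
  rw [IsDedekindDomain.mem_primesOverFinset_iff (maximalIdeal_ne_bot_V v)]
  refine ⟨(primeOfPlace w (SV_mem_of_restrict_eq v hw)).isPrime, ⟨?_⟩⟩
  exact (comap_asIdeal_eq v (primeOfPlace w (SV_mem_of_restrict_eq v hw))).symm

set_option maxHeartbeats 1000000 in
/-- The ramification index of a height one prime of the integral closure is the ramification
index of its place. -/
theorem ramificationIdx'_asIdeal (P : HeightOneSpectrum (SV (F' := F') v)) :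
    Ideal.ramificationIdx' (maximalIdeal v.toValuationSubring) P.asIdeal =
      (placeOfPrime (K := K) (F := F') P).ramificationIndex F := by
  obtain ⟨π, hπ⟩ := IsDiscreteValuationRing.exists_irreducible v.toValuationSubring
  have hπ0 : algebraMap v.toValuationSubring (SV (F' := F') v) π ≠ 0 := by
    rw [Ne, map_eq_zero_iff _
      (FaithfulSMul.algebraMap_injective v.toValuationSubring (SV (F' := F') v))]
    exact hπ.ne_zero
  have hπF : algebraMap F F' (π : F) ≠ 0 := by
    have : (π : F) ≠ 0 := by simpa [ne_eq, ZeroMemClass.coe_eq_zero] using hπ.ne_zero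
    simpa using this
  have hmap : Ideal.map (algebraMap v.toValuationSubring (SV (F' := F') v))
      (maximalIdeal v.toValuationSubring) =
      Ideal.span {algebraMap v.toValuationSubring (SV (F' := F') v) π} := by
    rw [hπ.maximalIdeal_eq, Ideal.map_span, Set.image_singleton]
  have hmult : Ideal.ramificationIdx' (maximalIdeal v.toValuationSubring) P.asIdeal =
      multiplicity P.asIdeal
        (Ideal.span {algebraMap v.toValuationSubring (SV (F' := F') v) π}) :=
    (Ideal.IsDedekindDomain.ramificationIdx'_eq_multiplicity (map_maximalIdeal_ne_bot v)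
        P.isPrime).trans (congrArg (multiplicity P.asIdeal) hmap)
  have hval : P.valuation F' (algebraMap F F' (π : F)) =
      P.intValuation (algebraMap v.toValuationSubring (SV (F' := F') v) π) :=
    P.valuation_of_algebraMap (K := F') (algebraMap v.toValuationSubring (SV (F' := F') v) π)
  have h1 : (placeOfPrime (K := K) (F := F') P).ord (algebraMap F F' (π : F)) =
      (Ideal.ramificationIdx' (maximalIdeal v.toValuationSubring) P.asIdeal : ℤ) := by
    rw [placeOfPrime_ord P hπF, primeOrd, hval, P.intValuation_eq_exp_neg_multiplicity hπ0,
      WithZero.log_exp, neg_neg, hmult]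
  have h2 : (placeOfPrime (K := K) (F := F') P).ord (algebraMap F F' (π : F)) =
      ((placeOfPrime (K := K) (F := F') P).ramificationIndex F : ℤ) := by
    rw [(placeOfPrime (K := K) (F := F') P).ord_restrict (π : F), restrict_placeOfPrime v P,
      v.ord_coe_irreducible hπ, mul_one]
  have h3 : (Ideal.ramificationIdx' (maximalIdeal v.toValuationSubring) P.asIdeal : ℤ) =
      ((placeOfPrime (K := K) (F := F') P).ramificationIndex F : ℤ) := by rw [← h1, h2]
  exact_mod_cast h3

/-- The ramification index of the centre is the ramification index of the place. -/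
theorem ramificationIdx'_centre {w : Place K F'} (hw : w.restrict F = v) :
    Ideal.ramificationIdx' (maximalIdeal v.toValuationSubring)
      (centre w (SV_mem_of_restrict_eq v hw)) = w.ramificationIndex F := by
  have h := ramificationIdx'_asIdeal v (primeOfPlace w (SV_mem_of_restrict_eq v hw))
  rw [placeOfPrime_primeOfPlace w (SV_mem_of_restrict_eq v hw)] at h
  exact h

/-- If the residue field of a place above `v` is `K`, the inertia degree of its centre is one. -/
theorem inertiaDeg'_centre {w : Place K F'} (hw : w.restrict F = v)
    (hval : ∀ f ∈ w.toValuationSubring,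
      ∃ a : K, f - algebraMap K F' a ∈ w.toValuationSubring.nonunits) :
    Ideal.inertiaDeg' (maximalIdeal v.toValuationSubring)
      (centre w (SV_mem_of_restrict_eq v hw)) = 1 := by
  set P := primeOfPlace w (SV_mem_of_restrict_eq v hw) with hP
  haveI hlo : P.asIdeal.LiesOver (maximalIdeal v.toValuationSubring) :=
    ⟨(comap_asIdeal_eq v P).symm⟩
  haveI := P.isPrime
  haveI hPm : P.asIdeal.IsMaximal := P.isMaximal
  show Ideal.inertiaDeg' (maximalIdeal v.toValuationSubring) P.asIdeal = 1
  rw [Ideal.inertiaDeg'_algebraMap]
  letI : Field (v.toValuationSubring ⧸ maximalIdeal v.toValuationSubring) :=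
    Ideal.Quotient.field _
  letI : Field (SV (F' := F') v ⧸ P.asIdeal) := Ideal.Quotient.field _
  have hs : Function.Surjective (algebraMap
      (v.toValuationSubring ⧸ maximalIdeal v.toValuationSubring)
      (SV (F' := F') v ⧸ P.asIdeal)) := by
    intro x
    obtain ⟨b, rfl⟩ := Ideal.Quotient.mk_surjective x
    obtain ⟨a, ha⟩ := hval _ (SV_mem_of_restrict_eq v hw b)
    refine ⟨Ideal.Quotient.mk _ (algebraMap K v.toValuationSubring a), ?_⟩
    have h0 : algebraMap v.toValuationSubring (SV (F' := F') v)
        (algebraMap K v.toValuationSubring a) = algebraMap K (SV (F' := F') v) a :=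
      Subtype.ext (IsScalarTower.algebraMap_apply K F F' a).symm
    have h1 : algebraMap (v.toValuationSubring ⧸ maximalIdeal v.toValuationSubring)
        (SV (F' := F') v ⧸ P.asIdeal)
        (Ideal.Quotient.mk _ (algebraMap K v.toValuationSubring a))
        = Ideal.Quotient.mk P.asIdeal (algebraMap K (SV (F' := F') v) a) := by
      rw [← h0]; rfl
    rw [h1]
    symm
    rw [Ideal.Quotient.eq]
    exact (mem_centre_iff v w _ _).mpr ha
  have hi : Function.Injective (algebraMap
      (v.toValuationSubring ⧸ maximalIdeal v.toValuationSubring)
      (SV (F' := F') v ⧸ P.asIdeal)) := RingHom.injective _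
  have e : (v.toValuationSubring ⧸ maximalIdeal v.toValuationSubring)
      ≃ₗ[v.toValuationSubring ⧸ maximalIdeal v.toValuationSubring]
      (SV (F' := F') v ⧸ P.asIdeal) :=
    LinearEquiv.ofBijective (Algebra.linearMap _ _) ⟨hi, hs⟩
  rw [← e.finrank_eq, Module.finrank_self]

/-- Every prime factor of `m_v` in the integral closure is the centre of a place above `v`. -/
theorem exists_centre_eq (P : Ideal (SV (F' := F') v))
    (hP : P ∈ IsDedekindDomain.primesOverFinset (maximalIdeal v.toValuationSubring)
      (SV (F' := F') v)) :
    ∃ (w : Place K F') (hw : w.restrict F = v), centre w (SV_mem_of_restrict_eq v hw) = P := by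
  have hprime := UniqueFactorizationMonoid.prime_of_factor P (Multiset.mem_toFinset.mp hP)
  let P' : HeightOneSpectrum (SV (F' := F') v) :=
    ⟨P, Ideal.isPrime_of_prime hprime, hprime.ne_zero⟩
  refine ⟨placeOfPrime (K := K) (F := F') P', restrict_placeOfPrime v P', ?_⟩
  exact congrArg HeightOneSpectrum.asIdeal (primeOfPlace_placeOfPrime (K := K) (F := F') P')

set_option maxHeartbeats 2000000 in
/-- **Norm value formula.** Let `F'/F` be a finite separable extension of fields over `K`, `v` a
place of `F` such that the places of `F'` above `v` have residue field `K`, and `g : F'` with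
value `c w` at every place `w` above `v`. Then the norm of `g` has the value
`∏_{w | v} (c w) ^ e(w | v)` at `v`. -/
theorem norm_sub_prod_mem_nonunits [HasPrincipalDivisors K F'] (g : F') (c : Place K F' → K)
    (hval : ∀ w : Place K F', w.restrict F = v → ∀ f ∈ w.toValuationSubring,
      ∃ a : K, f - algebraMap K F' a ∈ w.toValuationSubring.nonunits)
    (hc : ∀ w : Place K F', w.restrict F = v →
      g - algebraMap K F' (c w) ∈ w.toValuationSubring.nonunits) :
    Algebra.norm F g - algebraMap K F (∏ w ∈ v.fiber F', c w ^ w.ramificationIndex F) ∈
      v.toValuationSubring.nonunits := by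
  classical
  have hgS : g ∈ SV (F' := F') v := mem_SV_of_forall_mem v g fun w hw => by
    have h1 : g - algebraMap K F' (c w) ∈ w.toValuationSubring :=
      w.toValuationSubring.nonunits_subset (hc w hw)
    have h2 := w.algebraMap_mem' (c w)
    have h3 := w.toValuationSubring.add_mem _ _ h1 h2
    simpa using h3
  let gS : SV (F' := F') v := ⟨g, hgS⟩
  let a : Ideal (SV (F' := F') v) → v.toValuationSubring := fun P =>
    if h : P.IsPrime ∧ P ≠ ⊥ then
      algebraMap K v.toValuationSubring (c (placeOfPrime (K := K) (F := F') ⟨P, h.1, h.2⟩))
    else 0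
  have ha_centre : ∀ (w : Place K F') (hw : w.restrict F = v),
      a (centre w (SV_mem_of_restrict_eq v hw)) = algebraMap K v.toValuationSubring (c w) := by
    intro w hw
    have hpr : (centre w (SV_mem_of_restrict_eq v hw)).IsPrime ∧
        centre w (SV_mem_of_restrict_eq v hw) ≠ ⊥ :=
      ⟨(primeOfPlace w (SV_mem_of_restrict_eq v hw)).isPrime,
        (primeOfPlace w (SV_mem_of_restrict_eq v hw)).ne_bot⟩
    have hw' : placeOfPrime (K := K) (F := F')
        (⟨centre w (SV_mem_of_restrict_eq v hw), hpr.1, hpr.2⟩ :
          HeightOneSpectrum (SV (F' := F') v)) = w :=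
      placeOfPrime_primeOfPlace w (SV_mem_of_restrict_eq v hw)
    simp only [a, dif_pos hpr, hw']
  have ha : ∀ P ∈ (UniqueFactorizationMonoid.factors
      (Ideal.map (algebraMap v.toValuationSubring (SV (F' := F') v))
        (maximalIdeal v.toValuationSubring))).toFinset,
      gS - algebraMap v.toValuationSubring (SV (F' := F') v) (a P) ∈ P := by
    intro P hP
    obtain ⟨w, hw, rfl⟩ := exists_centre_eq v P hP
    rw [ha_centre w hw, mem_centre_iff]
    have h1 : algebraMap (SV (F' := F') v) F'
        (gS - algebraMap v.toValuationSubring (SV (F' := F') v)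
          (algebraMap K v.toValuationSubring (c w))) = g - algebraMap K F' (c w) := by
      rw [map_sub]
      congr 1
      exact (IsScalarTower.algebraMap_apply K F F' (c w)).symm
    rw [h1]
    exact hc w hw
  have key := norm_mk_eq_prod_factors (map_maximalIdeal_ne_bot v) gS a ha
  have hprod : ∏ w ∈ v.fiber F',
      Ideal.Quotient.mk (maximalIdeal v.toValuationSubring)
        (algebraMap K v.toValuationSubring (c w)) ^ w.ramificationIndex F =
      ∏ P ∈ (UniqueFactorizationMonoid.factors
        (Ideal.map (algebraMap v.toValuationSubring (SV (F' := F') v))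
          (maximalIdeal v.toValuationSubring))).toFinset,
        Ideal.Quotient.mk (maximalIdeal v.toValuationSubring) (a P) ^
          (Ideal.ramificationIdx' (maximalIdeal v.toValuationSubring) P *
            Ideal.inertiaDeg' (maximalIdeal v.toValuationSubring) P) := by
    refine Finset.prod_bij
      (fun w hw => centre w (SV_mem_of_restrict_eq v (Place.mem_fiber.mp hw))) ?_ ?_ ?_ ?_
    · intro w hw
      exact centre_mem_primesOverFinset v (Place.mem_fiber.mp hw)
    · intro w₁ hw₁ w₂ hw₂ h
      have h1 := placeOfPrime_primeOfPlace (K := K) w₁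
        (SV_mem_of_restrict_eq v (Place.mem_fiber.mp hw₁))
      have h2 := placeOfPrime_primeOfPlace (K := K) w₂
        (SV_mem_of_restrict_eq v (Place.mem_fiber.mp hw₂))
      have h3 : primeOfPlace w₁ (SV_mem_of_restrict_eq v (Place.mem_fiber.mp hw₁)) =
          primeOfPlace w₂ (SV_mem_of_restrict_eq v (Place.mem_fiber.mp hw₂)) :=
        HeightOneSpectrum.ext h
      rw [← h1, ← h2, h3]
    · intro P hP
      obtain ⟨w, hw, rfl⟩ := exists_centre_eq v P hP
      exact ⟨w, Place.mem_fiber.mpr hw, rfl⟩
    · intro w hw
      have hw' := Place.mem_fiber.mp hw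
      rw [ha_centre w hw', ramificationIdx'_centre v hw', inertiaDeg'_centre v hw' (hval w hw'),
        mul_one]
  have hmk : Ideal.Quotient.mk (maximalIdeal v.toValuationSubring)
      (algebraMap K v.toValuationSubring (∏ w ∈ v.fiber F', c w ^ w.ramificationIndex F)) =
      ∏ w ∈ v.fiber F', Ideal.Quotient.mk (maximalIdeal v.toValuationSubring)
        (algebraMap K v.toValuationSubring (c w)) ^ w.ramificationIndex F := by
    simp only [map_prod, map_pow]
  have hmem : Algebra.norm v.toValuationSubring gS -
      algebraMap K v.toValuationSubring (∏ w ∈ v.fiber F', c w ^ w.ramificationIndex F) ∈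
      maximalIdeal v.toValuationSubring :=
    Ideal.Quotient.eq.mp (key.trans (hprod.symm.trans hmk.symm))
  have hx : ((Algebra.norm v.toValuationSubring gS -
      algebraMap K v.toValuationSubring (∏ w ∈ v.fiber F', c w ^ w.ramificationIndex F) :
        v.toValuationSubring) : F) =
      Algebra.norm F g - algebraMap K F (∏ w ∈ v.fiber F', c w ^ w.ramificationIndex F) := by
    rw [AddSubgroupClass.coe_sub, coe_norm_SV v gS, v.coe_algebraMap]
  rw [← hx, ValuationSubring.mem_nonunits_iff_exists_mem_maximalIdeal]
  exact ⟨Subtype.property _, hmem⟩

/-- The norm of a function which is regular at all places above `v` is regular at `v`. -/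
theorem norm_mem_of_forall_mem (g : F')
    (hg : ∀ w : Place K F', w.restrict F = v → g ∈ w.toValuationSubring) :
    Algebra.norm F g ∈ v.toValuationSubring := by
  have h := coe_norm_SV v (⟨g, mem_SV_of_forall_mem v g hg⟩ : SV (F' := F') v)
  rw [← h]
  exact Subtype.property _

end Closure

end Rel

/-! ### The `Along` vocabulary -/

section Along

variable {K F F' : Type*} [Field K] [Field F] [Field F'] [Algebra K F] [Algebra K F']

/-- **Norm value formula along `φ`.** For a finite `φ : F →ₐ[K] F'` (characteristic zero), a place
`v` of `F` such that the places above `v` have residue field `K`, and `g : F'` with value `c w`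
at every place `w` above `v`, the norm of `g` along `φ` has the value
`∏_{w | v} (c w) ^ e(w | v)` at `v`. -/
theorem normAlong_sub_prod_mem_nonunits [CharZero K] [HasPrincipalDivisors K F']
    (φ : F →ₐ[K] F') (hφ : φ.toRingHom.IsIntegral) (hfin : FiniteAlong K φ)
    (v : Place K F) (g : F') (c : Place K F' → K)
    (hval : ∀ w : Place K F', w.restrictAlong φ hφ = v → ∀ f ∈ w.toValuationSubring,
      ∃ a : K, f - algebraMap K F' a ∈ w.toValuationSubring.nonunits)
    (hc : ∀ w : Place K F', w.restrictAlong φ hφ = v →
      g - algebraMap K F' (c w) ∈ w.toValuationSubring.nonunits) :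
    (letI := algebraAlong φ; Algebra.norm F g) -
        algebraMap K F (∏ w ∈ Place.fiberAlong φ hφ v, c w ^ w.ramificationIndexAlong φ) ∈
      v.toValuationSubring.nonunits := by
  letI := algebraAlong φ
  haveI := isScalarTower_along φ
  haveI := isIntegral_along φ hφ
  haveI : Module.Finite F F' := hfin
  haveI : CharZero F := charZero_of_injective_algebraMap (algebraMap K F).injective
  haveI : Algebra.IsSeparable F F' := inferInstance
  exact norm_sub_prod_mem_nonunits v g c hval hc

/-- The product over the fibre, written with the pulled back divisor of the point `v`. -/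
theorem pullbackAlong_single_prod [HasPrincipalDivisors K F']
    (φ : F →ₐ[K] F') (hφ : φ.toRingHom.IsIntegral) (v : Place K F) (c : Place K F' → K) :
    ((Divisor.pullbackAlong φ hφ (Finsupp.single v 1)).prod fun w n => c w ^ n.toNat) =
      ∏ w ∈ Place.fiberAlong φ hφ v, c w ^ w.ramificationIndexAlong φ := by
  classical
  have happ : ∀ w : Place K F', Divisor.pullbackAlong φ hφ (Finsupp.single v 1) w =
      if w.restrictAlong φ hφ = v then (w.ramificationIndexAlong φ : ℤ) else 0 := by
    intro w
    rw [Divisor.pullbackAlong_apply]
    by_cases h : w.restrictAlong φ hφ = v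
    · rw [if_pos h, h, Finsupp.single_eq_same, mul_one]
    · rw [if_neg h, Finsupp.single_eq_of_ne h, mul_zero]
  rw [Finsupp.prod_of_support_subset (s := Place.fiberAlong φ hφ v)]
  · refine Finset.prod_congr rfl fun w hw => ?_
    rw [happ w, if_pos (Place.mem_fiberAlong.mp hw), Int.toNat_natCast]
  · intro w hw
    rw [Finsupp.mem_support_iff, happ w] at hw
    by_contra hcon
    exact hw (if_neg fun h => hcon (Place.mem_fiberAlong.mpr h))
  · intro w _
    simp

/-- **Norm value formula along `φ`**, with the product written over the pulled back divisor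
`φ^*(v)`. -/
theorem normAlong_sub_pullback_prod_mem_nonunits [CharZero K] [HasPrincipalDivisors K F']
    (φ : F →ₐ[K] F') (hφ : φ.toRingHom.IsIntegral) (hfin : FiniteAlong K φ)
    (v : Place K F) (g : F') (c : Place K F' → K)
    (hval : ∀ w : Place K F', w.restrictAlong φ hφ = v → ∀ f ∈ w.toValuationSubring,
      ∃ a : K, f - algebraMap K F' a ∈ w.toValuationSubring.nonunits)
    (hc : ∀ w : Place K F', w.restrictAlong φ hφ = v →
      g - algebraMap K F' (c w) ∈ w.toValuationSubring.nonunits) :
    (letI := algebraAlong φ; Algebra.norm F g) -
        algebraMap K F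
          ((Divisor.pullbackAlong φ hφ (Finsupp.single v 1)).prod fun w n => c w ^ n.toNat) ∈
      v.toValuationSubring.nonunits := by
  rw [pullbackAlong_single_prod]
  exact normAlong_sub_prod_mem_nonunits φ hφ hfin v g c hval hc

/-- The norm along `φ` of a function which is regular at all places above `v` is regular at
`v`. -/
theorem normAlong_mem_of_forall_mem [CharZero K]
    (φ : F →ₐ[K] F') (hφ : φ.toRingHom.IsIntegral) (hfin : FiniteAlong K φ)
    (v : Place K F) (g : F')
    (hg : ∀ w : Place K F', w.restrictAlong φ hφ = v → g ∈ w.toValuationSubring) :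
    (letI := algebraAlong φ; Algebra.norm F g) ∈ v.toValuationSubring := by
  letI := algebraAlong φ
  haveI := isScalarTower_along φ
  haveI := isIntegral_along φ hφ
  haveI : Module.Finite F F' := hfin
  haveI : CharZero F := charZero_of_injective_algebraMap (algebraMap K F).injective
  haveI : Algebra.IsSeparable F F' := inferInstance
  exact norm_mem_of_forall_mem v g hg

end Along

end Fermat.Agent.S37.H64
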